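import Fermat.Agent.ReflectionGroups.Main
import Mathlib.RingTheory.Finiteness.Basic
import Mathlib.RingTheory.FiniteType
import Mathlib.RingTheory.IntegralClosure.IsIntegralClosure.Basic
import Mathlib.LinearAlgebra.FiniteDimensional.Basic

/-!
# Freeness over the invariants

Homogeneous polynomials whose classes modulo the Hilbert ideal form a base span the polynomials
over the invariants (induction on the degree) and, for a reflection group, are independent: in a
relation `∑ bᵢ rᵢ = 0` some `rᵢ` is an invariant combination of the others by Chevalley's lemma,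
and substituting shortens the relation.
-/

set_option autoImplicit false

noncomputable section

open MvPolynomial

namespace FA.Coinvariant

open Fermat.Agent.ReflectionGroups

variable {n : ℕ} {k : Type*} [Field k] (G : Subgroup (GL (Fin n) k))

theorem constant_or_mem {a : MvPolynomial (Fin n) k} {t : ℕ} (ha : a ∈ invariants G)
    (ht : a.IsHomogeneous t) : a - C (constantCoeff a) ∈ hilbertIdeal G := by
  rcases Nat.eq_zero_or_pos t with rfl | h
  · obtain ⟨c, rfl⟩ : ∃ c, a = C c :=
      ⟨_, totalDegree_eq_zero_iff_eq_C.1 (Nat.le_zero.1 ht.totalDegree_le)⟩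
    simp
  · rw [show constantCoeff a = 0 from ht.coeff_eq_zero (by simpa using h.ne), C_0, sub_zero]
    exact Ideal.subset_span ⟨ha, t, h, ht⟩

theorem component_mem {p : MvPolynomial (Fin n) k} (hp : p ∈ hilbertIdeal G) (D : ℕ) :
    homogeneousComponent D p ∈ hilbertIdeal G := by
  rw [hilbertIdeal] at hp
  refine Submodule.span_induction
    (p := fun p _ => ∀ D, homogeneousComponent D p ∈ hilbertIdeal G) ?_ ?_ ?_ ?_ hp D
  · rintro x ⟨hx, t, ht, hxt⟩ D
    rw [homogeneousComponent_of_mem hxt]
    split_ifs
    · exact Ideal.subset_span ⟨hx, t, ht, hxt⟩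
    · exact zero_mem _
  · intro D
    rw [map_zero]
    exact zero_mem _
  · intro x y _ _ hx hy D
    rw [map_add]
    exact add_mem (hx D) (hy D)
  · intro u x _ hx D
    rw [smul_eq_mul, ← sum_homogeneousComponent x, Finset.mul_sum, map_sum]
    refine sum_mem fun e _ => ?_
    rw [component_mul (homogeneousComponent_isHomogeneous e x)]
    split_ifs
    · exact Ideal.mul_mem_left _ _ (hx e)
    · exact zero_mem _

theorem hilbertIdeal_constantCoeff {p : MvPolynomial (Fin n) k} (hp : p ∈ hilbertIdeal G) :
    constantCoeff p = 0 := by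
  have hle : hilbertIdeal G ≤ RingHom.ker (constantCoeff : MvPolynomial (Fin n) k →+* k) :=
    Ideal.span_le.2 fun x ⟨_, t, ht, hxt⟩ => hxt.coeff_eq_zero (by simpa using ht.ne)
  exact hle hp

/-- Independence modulo the Hilbert ideal. -/
def IndepMod {ι : Type*} (s : Finset ι) (b : ι → MvPolynomial (Fin n) k) : Prop :=
  ∀ c : ι → k, ∑ i ∈ s, C (c i) * b i ∈ hilbertIdeal G → ∀ i ∈ s, c i = 0

variable [Finite G] [CharZero k]
  (hG : G = Subgroup.closure {g | g ∈ G ∧ ((g : Matrix (Fin n) (Fin n) k) - 1).rank ≤ 1})

include hG in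
/-- **No relations over the invariants.** -/
theorem eq_zero_of_relation {ι : Type*} (D : ℕ) (s : Finset ι) (e q : ι → ℕ)
    (r : ι → MvPolynomial (Fin n) k)
    (hr : ∀ i ∈ s, r i ∈ invariants G ∧ (r i).IsHomogeneous (q i) ∧ e i + q i = D)
    (b : ι → MvPolynomial (Fin n) k) (hb : ∀ i ∈ s, (b i).IsHomogeneous (e i))
    (hindep : IndepMod G s b) (hsum : ∑ i ∈ s, b i * r i = 0) : ∀ i ∈ s, r i = 0 := by
  classical
  induction s using Finset.strongInduction generalizing b with
  | _ s ih =>
    rcases s.eq_empty_or_nonempty with rfl | ⟨i₀, hi₀⟩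
    · simp
    obtain ⟨a, ha, hae⟩ : InvSpan G (s.erase i₀) r (r i₀) := by
      by_contra hnot
      have hI := chevalley_lemma G hG s r (fun i hi => (hr i hi).1) hi₀ hnot (e i₀) b (hb i₀ hi₀)
        hsum
      have := hindep (Pi.single i₀ 1) (by simpa [Pi.single_apply, hi₀] using hI) i₀ hi₀
      simp at this
    set a' : ι → MvPolynomial (Fin n) k := fun i =>
      if q i ≤ q i₀ then homogeneousComponent (q i₀ - q i) (a i) else 0
    have ha' : ∀ i ∈ s.erase i₀, a' i ∈ invariants G ∧
        (a' i).IsHomogeneous (q i₀ - q i) ∧ (a' i * b i₀).IsHomogeneous (e i) := by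
      intro i hi
      have h1 := (hr i (Finset.mem_of_mem_erase hi)).2.2
      have h0 := (hr i₀ hi₀).2.2
      simp only [a']
      split_ifs with hle
      · refine ⟨component_mem_invariants G (ha i) _, homogeneousComponent_isHomogeneous _ _, ?_⟩
        have := (homogeneousComponent_isHomogeneous (q i₀ - q i) (a i)).mul (hb i₀ hi₀)
        rwa [show q i₀ - q i + e i₀ = e i by omega] at this
      · rw [zero_mul]
        exact ⟨zero_mem _, isHomogeneous_zero _ _ _, isHomogeneous_zero _ _ _⟩
    have hr0 : r i₀ = ∑ i ∈ s.erase i₀, a' i * r i := by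
      conv_lhs => rw [← homogeneousComponent_eq_self (hr i₀ hi₀).2.1, hae, map_sum]
      refine Finset.sum_congr rfl fun i hi => ?_
      rw [component_mul (hr i (Finset.mem_of_mem_erase hi)).2.1]
      simp only [a', ite_mul, zero_mul]
    set b' : ι → MvPolynomial (Fin n) k := fun i => b i + a' i * b i₀
    have hzero := ih (s.erase i₀) (Finset.erase_ssubset hi₀)
      (fun i hi => hr i (Finset.mem_of_mem_erase hi)) b'
      (fun i hi => (hb i (Finset.mem_of_mem_erase hi)).add (ha' i hi).2.2) ?_ ?_
    · intro i hi
      rcases eq_or_ne i i₀ with rfl | hne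
      · rw [hr0]
        exact Finset.sum_eq_zero fun l hl => by rw [hzero l hl, mul_zero]
      · exact hzero i (Finset.mem_erase.2 ⟨hne, hi⟩)
    · intro c hc i hi
      set α := ∑ l ∈ s.erase i₀, c l * constantCoeff (a' l) with hα
      have key : ∑ l ∈ s, C (if l = i₀ then α else c l) * b l ∈ hilbertIdeal G := by
        have h1 : ∑ l ∈ s, C (if l = i₀ then α else c l) * b l =
            ∑ l ∈ s.erase i₀, C (c l) * b' l -
              ∑ l ∈ s.erase i₀, C (c l) * ((a' l - C (constantCoeff (a' l))) * b i₀) := by
          rw [← Finset.add_sum_erase _ _ hi₀, if_pos rfl, ← Finset.sum_sub_distrib, hα, map_sum,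
            Finset.sum_mul, ← Finset.sum_add_distrib]
          refine Finset.sum_congr rfl fun l hl => ?_
          rw [if_neg (Finset.ne_of_mem_erase hl), map_mul]
          ring
        rw [h1]
        exact sub_mem hc (sum_mem fun l hl => Ideal.mul_mem_left _ _
          (Ideal.mul_mem_right _ _ (constant_or_mem G (ha' l hl).1 (ha' l hl).2.1)))
      have := hindep _ key i (Finset.mem_of_mem_erase hi)
      rwa [if_neg (Finset.ne_of_mem_erase hi)] at this
    · rw [← Finset.add_sum_erase _ _ hi₀, hr0, Finset.mul_sum, ← Finset.sum_add_distrib] at hsum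
      rw [← hsum]
      exact Finset.sum_congr rfl fun l _ => by simp only [b']; ring

omit [CharZero k] in
/-- The polynomials are finite over the invariants. -/
theorem moduleFinite : Module.Finite (invariants G) (MvPolynomial (Fin n) k) := by
  classical
  let _ := Fintype.ofFinite G
  have hint : Algebra.IsIntegral (invariants G) (MvPolynomial (Fin n) k) := ⟨fun p => by
    set q : Polynomial (MvPolynomial (Fin n) k) := ∏ g : G,
      (Polynomial.X - Polynomial.C (act ((g : GL (Fin n) k) : Matrix (Fin n) (Fin n) k) p))
    have hlift : q ∈ Polynomial.lifts (algebraMap (invariants G) (MvPolynomial (Fin n) k)) := by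
      refine (Polynomial.lifts_iff_coeff_lifts q).2 fun i => ⟨⟨q.coeff i, fun g hg => ?_⟩, rfl⟩
      show ((act (g : Matrix (Fin n) (Fin n) k)) : _ →+* _) (q.coeff i) = q.coeff i
      rw [← Polynomial.coeff_map]
      congr 1
      simp only [q, Polynomial.map_prod, Polynomial.map_sub, Polynomial.map_X, Polynomial.map_C]
      refine Eq.trans (Finset.prod_congr rfl fun h _ => ?_) (Equiv.prod_comp
        (Equiv.mulLeft (⟨g, hg⟩ : G)) fun h : G => Polynomial.X -
          Polynomial.C (act ((h : GL (Fin n) k) : Matrix (Fin n) (Fin n) k) p))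
      rw [Equiv.coe_mulLeft, Subgroup.coe_mul, Units.val_mul, act_mul]
      rfl
    obtain ⟨r, hr, -, hrm⟩ := Polynomial.lifts_and_natDegree_eq_and_monic hlift
      (Polynomial.monic_prod_of_monic _ _ fun g _ => Polynomial.monic_X_sub_C _)
    refine ⟨r, hrm, ?_⟩
    rw [← Polynomial.eval_map, hr, Polynomial.eval_prod]
    exact Finset.prod_eq_zero (Finset.mem_univ 1) (by simp [act_one])⟩
  have : Algebra.FiniteType (invariants G) (MvPolynomial (Fin n) k) :=
    Algebra.FiniteType.of_restrictScalars_finiteType k (invariants G) (MvPolynomial (Fin n) k)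
  exact Algebra.IsIntegral.finite

/-- The coinvariant algebra. -/
abbrev Coinv : Type _ := MvPolynomial (Fin n) k ⧸ hilbertIdeal G

/-- The class of a polynomial. -/
def toCoinv : MvPolynomial (Fin n) k →ₐ[k] Coinv G :=
  Ideal.Quotient.mkₐ k (hilbertIdeal G)

omit [Finite G] [CharZero k] in
theorem toCoinv_eq_zero {p : MvPolynomial (Fin n) k} : toCoinv G p = 0 ↔ p ∈ hilbertIdeal G :=
  Ideal.Quotient.eq_zero_iff_mem

omit [Finite G] [CharZero k] in
theorem toCoinv_C_mul (c : k) (p : MvPolynomial (Fin n) k) :
    toCoinv G (C c * p) = c • toCoinv G p := by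
  rw [← smul_eq_C_mul, map_smul]

omit [Finite G] [CharZero k] in
/-- Homogeneous representatives of a base of the coinvariants. -/
theorem exists_homogeneous_basis : ∃ (s : Set (Coinv G)) (B : Module.Basis s k (Coinv G))
    (b : s → MvPolynomial (Fin n) k) (e : s → ℕ),
      ∀ i, (b i).IsHomogeneous (e i) ∧ B i = toCoinv G (b i) := by
  set T : Set (Coinv G) := {x | ∃ p t, p.IsHomogeneous t ∧ toCoinv G p = x}
  obtain ⟨s, hsT, hspan, hind⟩ := exists_linearIndependent k T
  have htop : ⊤ ≤ Submodule.span k (Set.range (Subtype.val : s → Coinv G)) := by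
    rw [Subtype.range_coe, hspan]
    rintro x -
    obtain ⟨p, rfl⟩ := Ideal.Quotient.mkₐ_surjective k (hilbertIdeal G) x
    rw [← sum_homogeneousComponent p, map_sum]
    exact sum_mem fun t _ => Submodule.subset_span
      ⟨_, t, homogeneousComponent_isHomogeneous t p, rfl⟩
  choose b e hb hbe using fun i : s => hsT i.2
  exact ⟨s, Module.Basis.mk hind htop, b, e, fun i => ⟨hb i, by
    rw [Module.Basis.mk_apply, hbe]⟩⟩

omit [Finite G] [CharZero k] in
/-- Representatives of a base span over the invariants. -/
theorem span_eq_top {ι : Type*} (B : Module.Basis ι k (Coinv G))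
    {b : ι → MvPolynomial (Fin n) k} {e : ι → ℕ}
    (hb : ∀ i, (b i).IsHomogeneous (e i) ∧ B i = toCoinv G (b i)) :
    Submodule.span (invariants G) (Set.range b) = ⊤ := by
  classical
  set M := Submodule.span (invariants G) (Set.range b)
  suffices h : ∀ (D : ℕ) (p : MvPolynomial (Fin n) k), p.IsHomogeneous D → p ∈ M by
    refine eq_top_iff.2 fun p _ => ?_
    rw [← sum_homogeneousComponent p]
    exact sum_mem fun D _ => h D _ (homogeneousComponent_isHomogeneous D p)
  intro D
  induction D using Nat.strong_induction_on with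
  | _ D ih =>
    intro p hp
    have hI : p - (B.repr (toCoinv G p)).sum (fun i c => C c * b i) ∈ hilbertIdeal G := by
      rw [← toCoinv_eq_zero, map_sub, sub_eq_zero, Finsupp.sum, map_sum]
      conv_lhs => rw [← B.linearCombination_repr (toCoinv G p), Finsupp.linearCombination_apply,
        Finsupp.sum]
      refine Finset.sum_congr rfl fun i _ => ?_
      rw [toCoinv_C_mul, (hb i).2]
    have key : ∀ u ∈ hilbertIdeal G, homogeneousComponent D u ∈ M := by
      intro u hu
      rw [hilbertIdeal] at hu
      suffices h : ∀ v, homogeneousComponent D (v * u) ∈ M by simpa using h 1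
      refine fun v => Submodule.span_induction (p := fun u _ => ∀ v : MvPolynomial (Fin n) k,
        homogeneousComponent D (v * u) ∈ M) ?_ ?_ ?_ ?_ hu v
      · rintro x ⟨hx, t, ht, hxt⟩ v
        rw [component_mul hxt]
        split_ifs
        · rw [mul_comm]
          exact M.smul_mem (⟨x, hx⟩ : invariants G)
            (ih (D - t) (by omega) _ (homogeneousComponent_isHomogeneous _ v))
        · exact zero_mem _
      · intro v
        simp
      · intro x y _ _ hx hy v
        rw [mul_add, map_add]
        exact add_mem (hx v) (hy v)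
      · intro w x _ hx v
        rw [smul_eq_mul, ← mul_assoc]
        exact hx _
    have h1 := key _ hI
    rw [map_sub, homogeneousComponent_eq_self hp] at h1
    have h2 : homogeneousComponent D ((B.repr (toCoinv G p)).sum fun i c => C c * b i) ∈ M := by
      rw [Finsupp.sum, map_sum]
      refine sum_mem fun i _ => ?_
      rw [homogeneousComponent_C_mul, homogeneousComponent_of_mem (hb i).1]
      split_ifs
      · exact M.smul_mem (⟨C _, (invariants G).algebraMap_mem _⟩ : invariants G)
          (Submodule.subset_span ⟨i, rfl⟩)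
      · rw [mul_zero]
        exact zero_mem _
    simpa using add_mem h1 h2

include hG in
/-- Representatives of a base are independent over the invariants. -/
theorem linearIndependent_lift {ι : Type*} (B : Module.Basis ι k (Coinv G))
    {b : ι → MvPolynomial (Fin n) k} {e : ι → ℕ}
    (hb : ∀ i, (b i).IsHomogeneous (e i) ∧ B i = toCoinv G (b i)) :
    LinearIndependent (invariants G) b := by
  classical
  rw [linearIndependent_iff']
  intro s r hr i hi
  suffices h : ∀ D, e i ≤ D → homogeneousComponent (D - e i) (r i : MvPolynomial (Fin n) k) = 0 by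
    refine Subtype.ext ?_
    rw [← sum_homogeneousComponent (r i : MvPolynomial (Fin n) k)]
    exact Finset.sum_eq_zero fun t _ => by simpa using h (t + e i) (Nat.le_add_left _ _)
  intro D hD
  have hr' : ∑ l ∈ s, (r l : MvPolynomial (Fin n) k) * b l = 0 := hr
  have h0 := congrArg (homogeneousComponent D) hr'
  rw [map_sum, map_zero] at h0
  simp only [component_mul (hb _).1] at h0
  rw [← Finset.sum_filter] at h0
  refine eq_zero_of_relation G hG D (s.filter fun l => e l ≤ D) e (fun l => D - e l)
    (fun l => homogeneousComponent (D - e l) (r l : MvPolynomial (Fin n) k)) (fun l hl => ?_) b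
    (fun l _ => (hb l).1) ?_ ?_ i (Finset.mem_filter.2 ⟨hi, hD⟩)
  · have := (Finset.mem_filter.1 hl).2
    exact ⟨component_mem_invariants G (r l).2 _, homogeneousComponent_isHomogeneous _ _, by omega⟩
  · intro c hc l hl
    refine linearIndependent_iff'.1 B.linearIndependent _ c ?_ l hl
    rw [← toCoinv_eq_zero, map_sum] at hc
    rw [← hc]
    refine Finset.sum_congr rfl fun l _ => ?_
    rw [toCoinv_C_mul, (hb l).2]
  · rw [← h0]
    exact Finset.sum_congr rfl fun l _ => mul_comm _ _

/-- A base of the polynomials over the invariants from one of the coinvariants. -/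
def liftBasis {ι : Type*} (B : Module.Basis ι k (Coinv G))
    {b : ι → MvPolynomial (Fin n) k} {e : ι → ℕ}
    (hb : ∀ i, (b i).IsHomogeneous (e i) ∧ B i = toCoinv G (b i)) :
    Module.Basis ι (invariants G) (MvPolynomial (Fin n) k) :=
  Module.Basis.mk (linearIndependent_lift G hG B hb) (span_eq_top G B hb).ge

theorem liftBasis_apply {ι : Type*} (B : Module.Basis ι k (Coinv G))
    {b : ι → MvPolynomial (Fin n) k} {e : ι → ℕ}
    (hb : ∀ i, (b i).IsHomogeneous (e i) ∧ B i = toCoinv G (b i)) (i : ι) :
    liftBasis G hG B hb i = b i :=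
  Module.Basis.mk_apply _ _ i

include hG in
theorem finite_index {ι : Type*} (B : Module.Basis ι k (Coinv G))
    {b : ι → MvPolynomial (Fin n) k} {e : ι → ℕ}
    (hb : ∀ i, (b i).IsHomogeneous (e i) ∧ B i = toCoinv G (b i)) : Finite ι :=
  have := moduleFinite G
  Module.Finite.finite_basis (liftBasis G hG B hb)

end FA.Coinvariant
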