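import Fermat.Agent.Coinvariant.Free
import Fermat.Agent.SteinbergFixed.Translate
import Mathlib.LinearAlgebra.Trace
import Mathlib.Algebra.MvPolynomial.Funext
import Mathlib.Algebra.CharZero.Infinite

/-!
# The regular representation on the coinvariants

Over the invariants `A g M(s) = M(g s) A g` for the matrix `A g` of `g` and `M(s)` of multiplication
by `s`, so `trace (A g M(t (s - g s))) = 0` and `trace (A g) = 0` for `g ≠ 1`; the sum over the
group factors through the invariants, so the rank is `|G|`. An equivariant section of the classes,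
evaluated on a free orbit, identifies the coinvariants with the functions on `G`.
-/

set_option autoImplicit false

noncomputable section

open MvPolynomial

namespace FA.Coinvariant

open Fermat.Agent.ReflectionGroups

variable {n : ℕ} {k : Type*} [Field k] (G : Subgroup (GL (Fin n) k))

theorem eval_act (g : Matrix (Fin n) (Fin n) k) (w : Fin n → k) (p : MvPolynomial (Fin n) k) :
    eval w (act g p) = eval (Matrix.vecMul w g) p := by
  induction p using MvPolynomial.induction_on with
  | C a => simp [act]
  | add p q hp hq => simp only [map_add, hp, hq]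
  | mul_X p j hp =>
    rw [map_mul, map_mul, map_mul, hp, act_X, eval_X, map_sum]
    simp [Matrix.vecMul, dotProduct, mul_comm]

theorem act_inv_act (g : GL (Fin n) k) (p : MvPolynomial (Fin n) k) :
    act ((g⁻¹ : GL (Fin n) k) : Matrix (Fin n) (Fin n) k)
      (act (g : Matrix (Fin n) (Fin n) k) p) = p := by
  rw [← act_mul, ← Units.val_mul, inv_mul_cancel, Units.val_one, act_one]

/-- A matrix other than `1` moves a variable. -/
theorem exists_moved {g : GL (Fin n) k} (hg : g ≠ 1) :
    ∃ j, act (g : Matrix (Fin n) (Fin n) k) (X j) - X j ≠ 0 := by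
  by_contra! h
  refine hg (Units.ext (Matrix.ext fun i j => ?_))
  have := congrArg (coeff (Finsupp.single i 1)) (sub_eq_zero.1 (h j))
  rw [act_X, coeff_sum, Finset.sum_eq_single i (fun l _ hl => by
    simp [coeff_C_mul, coeff_X, Finsupp.single_left_inj, hl]) (by simp), coeff_C_mul, coeff_X,
    coeff_X] at this
  simpa [Finsupp.single_left_inj, Matrix.one_apply, eq_comm] using this

/-- The action as a map linear over the invariants. -/
def actR (g : G) : MvPolynomial (Fin n) k →ₗ[invariants G] MvPolynomial (Fin n) k where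
  toFun := act ((g : GL (Fin n) k) : Matrix (Fin n) (Fin n) k)
  map_add' := map_add _
  map_smul' r p := by
    show act _ ((r : MvPolynomial (Fin n) k) * p) = (r : MvPolynomial (Fin n) k) * act _ p
    rw [map_mul, r.2 _ g.2]

theorem actR_apply (g : G) (p : MvPolynomial (Fin n) k) :
    actR G g p = act ((g : GL (Fin n) k) : Matrix (Fin n) (Fin n) k) p :=
  rfl

variable [Finite G]

/-- The trace vanishes off the identity. -/
theorem trace_actR {g : G} (hg : g ≠ 1) :
    LinearMap.trace (invariants G) _ (actR G g) = 0 := by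
  classical
  let _ := Fintype.ofFinite G
  set A := actR G g
  set M : MvPolynomial (Fin n) k → MvPolynomial (Fin n) k →ₗ[invariants G]
      MvPolynomial (Fin n) k := fun s => LinearMap.mulLeft (invariants G) s with hM
  have hMul : ∀ s t, M (s * t) = M s * M t := fun s t => LinearMap.ext fun p => mul_assoc s t p
  have hAM : ∀ s, A * M s = M (A s) * A := fun s => LinearMap.ext fun p => by
    show act _ (s * p) = act _ s * act _ p
    exact map_mul _ _ _
  have hzero : ∀ s t,
      LinearMap.trace (invariants G) _ (A * M ((s - A s) * t)) = 0 := fun s t => by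
    have hsub : M ((s - A s) * t) = M (s * t) - M (A s * t) := by
      rw [sub_mul]
      exact LinearMap.ext fun p => sub_mul _ _ p
    rw [hsub, mul_sub, map_sub, sub_eq_zero, hMul, ← mul_assoc, hAM, mul_assoc,
      LinearMap.trace_mul_comm, mul_assoc, ← hMul, mul_comm t]
  obtain ⟨j, hj⟩ := exists_moved (g := (g : GL (Fin n) k))
    fun h => hg (Subtype.ext h)
  set u : MvPolynomial (Fin n) k := X j - A (X j)
  have hu : u ≠ 0 := fun h => hj (by rw [← neg_sub, show X j - act _ (X j) = (0 : _) from h,
    neg_zero])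
  set N : MvPolynomial (Fin n) k :=
    ∏ h : G, act ((h : GL (Fin n) k) : Matrix (Fin n) (Fin n) k) u
  have hN : N ∈ invariants G := fun h hh => by
    rw [map_prod]
    refine Eq.trans (Finset.prod_congr rfl fun x _ => ?_) (Equiv.prod_comp
      (Equiv.mulLeft (⟨h, hh⟩ : G)) fun x : G =>
        act ((x : GL (Fin n) k) : Matrix (Fin n) (Fin n) k) u)
    rw [Equiv.coe_mulLeft, Subgroup.coe_mul, Units.val_mul, act_mul]
  have hN0 : N ≠ 0 := Finset.prod_ne_zero_iff.2 fun h _ h0 => hu (by
    rw [← act_inv_act (h : GL (Fin n) k) u, h0, map_zero])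
  have hNu : N = u *
      ∏ h ∈ Finset.univ.erase (1 : G), act ((h : GL (Fin n) k) : Matrix (Fin n) (Fin n) k) u := by
    show ∏ h : G, _ = _
    rw [← Finset.mul_prod_erase Finset.univ _ (Finset.mem_univ (1 : G))]
    simp [act_one]
  have h1 : M N = (⟨N, hN⟩ : invariants G) • (1 : Module.End (invariants G) _) :=
    LinearMap.ext fun p => rfl
  have h2 := hzero (X j) (∏ h ∈ Finset.univ.erase (1 : G),
    act ((h : GL (Fin n) k) : Matrix (Fin n) (Fin n) k) u)
  rw [← hNu, h1, mul_smul_comm, mul_one, map_smul, smul_eq_zero] at h2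
  exact h2.resolve_left fun h => hN0 (congrArg Subtype.val h)

variable [CharZero k]

/-- The rank over the invariants is the order of the group. -/
theorem card_basis {ι : Type*} [Fintype ι]
    (B : Module.Basis ι (invariants G) (MvPolynomial (Fin n) k)) :
    Fintype.card ι = Nat.card G := by
  classical
  let _ := Fintype.ofFinite G
  have : Module.Free (invariants G) (MvPolynomial (Fin n) k) := Module.Free.of_basis B
  have : Module.Finite (invariants G) (MvPolynomial (Fin n) k) := Module.Finite.of_basis B
  have hmem : ∀ p, ∑ g : G, actR G g p ∈ invariants G := fun p h hh => by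
    simp only [actR_apply]
    rw [map_sum]
    refine Eq.trans (Finset.sum_congr rfl fun x _ => ?_) (Equiv.sum_comp
      (Equiv.mulLeft (⟨h, hh⟩ : G)) fun x : G =>
        act ((x : GL (Fin n) k) : Matrix (Fin n) (Fin n) k) p)
    rw [Equiv.coe_mulLeft, Subgroup.coe_mul, Units.val_mul, act_mul]
  set π : MvPolynomial (Fin n) k →ₗ[invariants G] invariants G :=
    { toFun := fun p => ⟨∑ g : G, actR G g p, hmem p⟩
      map_add' := fun p q => Subtype.ext (by simp [Finset.sum_add_distrib])
      map_smul' := fun r p => Subtype.ext (by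
        simp only [map_smul, ← Finset.smul_sum, RingHom.id_apply]
        rfl) }
  have hfac : ∑ g : G, actR G g =
      (Algebra.linearMap (invariants G) (MvPolynomial (Fin n) k)).comp π :=
    LinearMap.ext fun p => by
      rw [LinearMap.sum_apply]
      rfl
  have hπ1 : π ∘ₗ Algebra.linearMap (invariants G) (MvPolynomial (Fin n) k) =
      (Nat.card G : invariants G) • LinearMap.id := by
    ext
    simp [π, actR_apply, Nat.card_eq_fintype_card]
  have h := congrArg (LinearMap.trace (invariants G) _) hfac
  rw [LinearMap.trace_comp_comm', hπ1, map_smul, LinearMap.trace_id, Module.finrank_self,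
    Nat.cast_one, smul_eq_mul, mul_one, map_sum, Finset.sum_eq_single 1
      (fun g _ hg => trace_actR G hg) (by simp),
    show actR G 1 = LinearMap.id from LinearMap.ext fun p => by simp [actR_apply, act_one],
    LinearMap.trace_id, Module.finrank_eq_card_basis B] at h
  have h' := congrArg (invariants G).val h
  rw [map_natCast, map_natCast] at h'
  exact_mod_cast h'

omit [CharZero k] in
theorem act_mem_hilbertIdeal' (g : G) :
    hilbertIdeal G ≤
      (hilbertIdeal G).comap (act ((g : GL (Fin n) k) : Matrix (Fin n) (Fin n) k)) :=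
  fun _ hp => act_mem_hilbertIdeal G g.2 hp

/-- The action on the coinvariants. -/
def qact (g : G) : Coinv G →ₗ[k] Coinv G :=
  (Ideal.quotientMapₐ (hilbertIdeal G) (act ((g : GL (Fin n) k) : Matrix (Fin n) (Fin n) k))
    (act_mem_hilbertIdeal' G g)).toLinearMap

omit [CharZero k] in
theorem qact_toCoinv (g : G) (p : MvPolynomial (Fin n) k) :
    qact G g (toCoinv G p) = toCoinv G (act ((g : GL (Fin n) k) : Matrix (Fin n) (Fin n) k) p) :=
  rfl

omit [CharZero k] in
theorem qact_mul (g h : G) (x : Coinv G) : qact G (g * h) x = qact G g (qact G h x) := by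
  obtain ⟨p, rfl⟩ := Ideal.Quotient.mkₐ_surjective k (hilbertIdeal G) x
  change qact G (g * h) (toCoinv G p) = qact G g (qact G h (toCoinv G p))
  rw [qact_toCoinv, qact_toCoinv, qact_toCoinv, ← act_mul]
  rfl

variable (hG : G = Subgroup.closure {g | g ∈ G ∧ ((g : Matrix (Fin n) (Fin n) k) - 1).rank ≤ 1})

include hG in
/-- The coinvariants have dimension `|G|`. -/
theorem finrank_coinv :
    FiniteDimensional k (Coinv G) ∧ Module.finrank k (Coinv G) = Nat.card G := by
  obtain ⟨s, B, b, e, hb⟩ := exists_homogeneous_basis G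
  have := finite_index G hG B hb
  let _ := Fintype.ofFinite s
  refine ⟨Module.Finite.of_basis B, ?_⟩
  rw [Module.finrank_eq_card_basis B]
  exact card_basis G (liftBasis G hG B hb)

include hG in
/-- The polynomials are free of rank `|G|` over the invariants. -/
theorem free_rank : Module.Free (invariants G) (MvPolynomial (Fin n) k) ∧
    Module.finrank (invariants G) (MvPolynomial (Fin n) k) = Nat.card G := by
  obtain ⟨s, B, b, e, hb⟩ := exists_homogeneous_basis G
  have := finite_index G hG B hb
  let _ := Fintype.ofFinite s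
  refine ⟨Module.Free.of_basis (liftBasis G hG B hb), ?_⟩
  rw [Module.finrank_eq_card_basis (liftBasis G hG B hb)]
  exact card_basis G (liftBasis G hG B hb)

/-- A point with trivial stabiliser. -/
theorem exists_free_point :
    ∃ v : Fin n → k, ∀ g h : G, Matrix.vecMul v ((g : GL (Fin n) k) : Matrix (Fin n) (Fin n) k) =
      Matrix.vecMul v ((h : GL (Fin n) k) : Matrix (Fin n) (Fin n) k) → g = h := by
  classical
  let _ := Fintype.ofFinite G
  choose j hj using fun g : {g : G // g ≠ 1} =>
    exists_moved (g := ((g.1 : GL (Fin n) k))) fun h => g.2 (Subtype.ext h)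
  set P : MvPolynomial (Fin n) k := ∏ g : {g : G // g ≠ 1},
    (act (((g.1 : GL (Fin n) k)) : Matrix (Fin n) (Fin n) k) (X (j g)) - X (j g))
  have hP : P ≠ 0 := Finset.prod_ne_zero_iff.2 fun g _ => hj g
  obtain ⟨v, hv⟩ : ∃ v, eval v P ≠ 0 := by
    by_contra! h
    exact hP (MvPolynomial.funext fun v => by rw [h v, map_zero])
  refine ⟨v, fun g h hgh => by_contra fun hne => hv ?_⟩
  have h1 : Matrix.vecMul v (((g * h⁻¹ : G) : GL (Fin n) k) : Matrix (Fin n) (Fin n) k) = v := by
    rw [Subgroup.coe_mul, Units.val_mul, ← Matrix.vecMul_vecMul, hgh, Matrix.vecMul_vecMul,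
      ← Units.val_mul, Subgroup.coe_inv, mul_inv_cancel, Units.val_one, Matrix.vecMul_one]
  rw [map_prod]
  refine Finset.prod_eq_zero (Finset.mem_univ ⟨g * h⁻¹, mul_inv_eq_one.not.2 hne⟩) ?_
  rw [map_sub, eval_act, h1, sub_self]

include hG in
/-- **The regular representation on the coinvariants.** -/
theorem exists_regular_equiv : ∃ Θ : Coinv G ≃ₗ[k] (G → k),
    ∀ g x, Θ (qact G g x) = fun h => Θ x (h * g) := by
  classical
  let _ := Fintype.ofFinite G
  obtain ⟨s, B, b, e, hb⟩ := exists_homogeneous_basis G
  have hfin := finite_index G hG B hb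
  let _ := Fintype.ofFinite s
  set φ₀ : Coinv G →ₗ[k] MvPolynomial (Fin n) k := B.constr k b
  have hB : ∀ i, φ₀ (B i) = b i := fun i => B.constr_basis k b i
  have hsec₀ : ∀ x, toCoinv G (φ₀ x) = x := fun x => by
    have h : (toCoinv G).toLinearMap.comp φ₀ = LinearMap.id :=
      B.ext fun i => by
        rw [LinearMap.comp_apply, hB, AlgHom.toLinearMap_apply, ← (hb i).2, LinearMap.id_apply]
    exact LinearMap.congr_fun h x
  have hhom₀ : ∀ (t : ℕ) (p : MvPolynomial (Fin n) k), p.IsHomogeneous t →
      (φ₀ (toCoinv G p)).IsHomogeneous t := fun t p hp => by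
    have h : φ₀ ∘ₗ (toCoinv G).toLinearMap ∘ₗ (homogeneousComponent t) ∘ₗ φ₀ =
        (homogeneousComponent t) ∘ₗ φ₀ := B.ext fun i => by
      simp only [LinearMap.comp_apply, hB, homogeneousComponent_of_mem (hb i).1]
      split_ifs
      · rw [AlgHom.toLinearMap_apply, ← (hb i).2, hB]
      · rw [map_zero, map_zero]
    have h1 : toCoinv G (homogeneousComponent t (φ₀ (toCoinv G p))) = toCoinv G p := by
      have h2 : φ₀ (toCoinv G p) - p ∈ hilbertIdeal G := by
        rw [← toCoinv_eq_zero, map_sub, hsec₀, sub_self]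
      have h3 := component_mem G h2 t
      rw [map_sub, homogeneousComponent_eq_self hp, ← toCoinv_eq_zero, map_sub, sub_eq_zero] at h3
      exact h3
    have h4 := LinearMap.congr_fun h (toCoinv G p)
    simp only [LinearMap.comp_apply, AlgHom.toLinearMap_apply, h1] at h4
    rw [h4]
    exact homogeneousComponent_isHomogeneous _ _
  set φ : Coinv G →ₗ[k] MvPolynomial (Fin n) k := (Nat.card G : k)⁻¹ • ∑ h : G,
    (act ((h : GL (Fin n) k) : Matrix (Fin n) (Fin n) k)).toLinearMap ∘ₗ φ₀ ∘ₗ qact G h⁻¹
  have hφ : ∀ x, φ x = (Nat.card G : k)⁻¹ • ∑ h : G,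
      act ((h : GL (Fin n) k) : Matrix (Fin n) (Fin n) k) (φ₀ (qact G h⁻¹ x)) := fun x => by
    simp [φ, LinearMap.sum_apply]
  have heq : ∀ (g : G) x,
      φ (qact G g x) = act ((g : GL (Fin n) k) : Matrix (Fin n) (Fin n) k) (φ x) := fun g x => by
    rw [hφ, hφ, map_smul, map_sum]
    refine congrArg ((Nat.card G : k)⁻¹ • ·) ?_
    rw [← Equiv.sum_comp (Equiv.mulLeft g)]
    refine Finset.sum_congr rfl fun h _ => ?_
    rw [Equiv.coe_mulLeft, ← act_mul, ← qact_mul, mul_inv_rev, inv_mul_cancel_right]
    rfl
  have hsec : ∀ x, toCoinv G (φ x) = x := fun x => by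
    rw [hφ, map_smul, map_sum, Finset.sum_congr rfl fun h _ => by
      rw [← qact_toCoinv, hsec₀, ← qact_mul, mul_inv_cancel], Finset.sum_const, Finset.card_univ,
      ← Nat.card_eq_fintype_card, ← Nat.cast_smul_eq_nsmul k, smul_smul,
      inv_mul_cancel₀ (Nat.cast_ne_zero.2 Nat.card_pos.ne'), one_smul]
    obtain ⟨p, rfl⟩ := Ideal.Quotient.mkₐ_surjective k (hilbertIdeal G) x
    change qact G 1 (toCoinv G p) = toCoinv G p
    rw [qact_toCoinv, Subgroup.coe_one, Units.val_one, act_one]
  have hb' : ∀ i, (φ (B i)).IsHomogeneous (e i) ∧ B i = toCoinv G (φ (B i)) := fun i => by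
    refine ⟨?_, (hsec _).symm⟩
    rw [hφ, smul_eq_C_mul]
    refine IsHomogeneous.C_mul (IsHomogeneous.sum _ _ _ fun h _ => isHomogeneous_act _ ?_) _
    rw [(hb i).2, qact_toCoinv]
    exact hhom₀ _ _ (isHomogeneous_act _ (hb i).1)
  obtain ⟨v, hv⟩ := exists_free_point G
  set pt : G → Fin n → k := fun h =>
    Matrix.vecMul v ((h : GL (Fin n) k) : Matrix (Fin n) (Fin n) k)
  set Ψ : Coinv G →ₗ[k] (G → k) :=
    { toFun := fun x h => eval (pt h) (φ x)
      map_add' := fun x y => funext fun h => by simp
      map_smul' := fun c x => funext fun h => by simp [smul_eval] }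
  have hΨ : ∀ (p : MvPolynomial (Fin n) k), (fun h => eval (pt h) p) ∈ LinearMap.range Ψ := by
    intro p
    have hp := (liftBasis G hG B hb').sum_repr p
    set r := fun i => ((liftBasis G hG B hb').repr p i : MvPolynomial (Fin n) k)
    refine ⟨∑ i, eval v (r i) • B i, funext fun h => ?_⟩
    show eval (pt h) (φ _) = eval (pt h) p
    conv_rhs => rw [← hp]
    simp only [map_sum, map_smul, smul_eval, liftBasis_apply]
    refine Finset.sum_congr rfl fun i _ => ?_
    show _ = eval (pt h) (r i * φ (B i))
    rw [map_mul]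
    congr 1
    show eval v (r i) = eval (Matrix.vecMul v _) (r i)
    rw [← eval_act, ((liftBasis G hG B hb').repr p i).2 _ h.2]
  have hsurj : Function.Surjective Ψ := by
    rw [← LinearMap.range_eq_top, eq_top_iff]
    intro F _
    rw [show F = ∑ h, F h • Pi.single h (1 : k) from pi_eq_sum_univ' F]
    refine sum_mem fun h _ => Submodule.smul_mem _ _ ?_
    obtain ⟨q, hq1, hq0⟩ := FA.SteinbergFixed.exists_separator (pt h)
      ((Finset.univ.image pt).erase (pt h)) (Finset.notMem_erase _ _) 1
    have hev : ∀ (w : Fin n → k) (u : MvPolynomial (Fin n) k),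
        FA.SteinbergFixed.shift w u ∈ idealOfVars (Fin n) k ^ 1 → eval w u = 0 := fun w u hu => by
      rw [← FA.SteinbergFixed.constantCoeff_shift, constantCoeff_eq]
      exact (mem_pow_idealOfVars_iff' 1 _).1 hu 0 (by simp)
    suffices he : (fun l => eval (pt l) q) = Pi.single h (1 : k) from he ▸ hΨ q
    funext l
    rcases eq_or_ne l h with rfl | hne
    · rw [Pi.single_eq_same, ← sub_eq_zero]
      have := hev (pt l) (q - 1) (by rwa [map_sub, map_one])
      rwa [map_sub, map_one] at this
    · rw [Pi.single_eq_of_ne hne]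
      exact hev _ _ (hq0 _ (Finset.mem_erase.2 ⟨fun h' => hne (hv _ _ h'),
        Finset.mem_image_of_mem _ (Finset.mem_univ l)⟩))
  obtain ⟨hfd, hrank⟩ := finrank_coinv G hG
  have hinj : Function.Injective Ψ :=
    (LinearMap.injective_iff_surjective_of_finrank_eq_finrank (by
      rw [hrank, Module.finrank_fintype_fun_eq_card, Nat.card_eq_fintype_card])).2 hsurj
  refine ⟨LinearEquiv.ofBijective Ψ ⟨hinj, hsurj⟩, fun g x => funext fun h => ?_⟩
  show eval (pt h) (φ (qact G g x)) = eval (pt (h * g)) (φ x)
  rw [heq, eval_act]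
  simp only [pt, Subgroup.coe_mul, Units.val_mul, ← Matrix.vecMul_vecMul]

end FA.Coinvariant
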